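import Fermat.Agent.S26.Scheme.Defs

/-! # S26 / M12 : affine charts of `A` as `K`-algebras -/

set_option autoImplicit false
universe u
open CategoryTheory CategoryTheory.Limits AlgebraicGeometry NeronModelInfra GoodReductionJacobian
open IsLocalRing
noncomputable section
namespace Fermat.Agent.S26.Sch

variable {K : Type u} [Field K] {A : Scheme.{u}} (f : A ⟶ Spec (CommRingCat.of K))

/-- `K → Γ(A,U)`. -/
def kToSec (U : A.Opens) : K →+* Γ(A, U) :=
  ((Scheme.ΓSpecIso (CommRingCat.of K)).inv ≫ f.appLE ⊤ U le_top).hom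

/-- `Γ(A,U)` as a `K`-algebra. -/
def Sec (_f : A ⟶ Spec (CommRingCat.of K)) (U : A.Opens) : Type u := Γ(A, U)

instance (U : A.Opens) : CommRing (Sec f U) := inferInstanceAs (CommRing Γ(A, U))
instance (U : A.Opens) : Algebra K (Sec f U) := (kToSec f U).toAlgebra

theorem smooth_sec [Smooth f] {U : A.Opens} (hU : IsAffineOpen U) : Algebra.Smooth K (Sec f U) := by
  have h1 : (f.appLE ⊤ U le_top).hom.Smooth := f.smooth_appLE (isAffineOpen_top _) hU le_top
  have h2 : ((Scheme.ΓSpecIso (CommRingCat.of K)).inv).hom.Smooth :=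
    RingHom.Smooth.of_bijective
      (Scheme.ΓSpecIso (CommRingCat.of K)).symm.commRingCatIsoToRingEquiv.bijective
  have h3 : (kToSec f U).Smooth := h2.comp h1
  exact h3

/-- germ map as an algebra -/
instance {U : A.Opens} (x : U) : Algebra (Sec f U) (St f x.1) :=
  (A.presheaf.germ U x.1 x.2).hom.toAlgebra

set_option backward.isDefEq.respectTransparency false in
theorem germ_kToSec {U : A.Opens} (x : U) :
    (A.presheaf.germ U x.1 x.2).hom.comp (kToSec f U) = kToStalk f x.1 := by
  rw [kToSec, kToStalk, ← CommRingCat.hom_comp]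
  congr 1
  simp only [Category.assoc]
  congr 1
  rw [Scheme.Hom.appLE, Category.assoc, TopCat.Presheaf.germ_res]
  rfl

instance {U : A.Opens} (x : U) : IsScalarTower K (Sec f U) (St f x.1) :=
  IsScalarTower.of_algebraMap_eq' (germ_kToSec f x).symm

/-- the prime ideal of `Γ(A,U)` of a point `x ∈ U` -/
def primeOf {U : A.Opens} (hU : IsAffineOpen U) (x : U) : Ideal (Sec f U) :=
  (hU.primeIdealOf x).asIdeal

instance {U : A.Opens} (hU : IsAffineOpen U) (x : U) : (primeOf f hU x).IsPrime :=
  (hU.primeIdealOf x).2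

instance isLocalization_st {U : A.Opens} (hU : IsAffineOpen U) (x : U) :
    IsLocalization.AtPrime (St f x.1) (primeOf f hU x) :=
  hU.isLocalization_stalk x

end Fermat.Agent.S26.Sch
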