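import Mathlib
import Fermat.Prelude.Def_JacJ1Iface
import Fermat.Prelude.Def_GoodReductionJacobian_RelativeGroupLawKernel

/-! # S26 / M12 : shared definitions of the scheme side -/

set_option autoImplicit false

universe u

open CategoryTheory CategoryTheory.Limits AlgebraicGeometry NeronModelInfra GoodReductionJacobian
open IsLocalRing

noncomputable section

namespace Fermat.Agent.S26.Sch

variable {K : Type u} [Field K] {A : Scheme.{u}} (f : A ⟶ Spec (CommRingCat.of K))

/-- The structure morphism `Spec R ⟶ Spec K` of a `K`-algebra. -/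
abbrev str (K : Type u) [Field K] (R : Type u) [CommRing R] [Algebra K R] :
    Spec (CommRingCat.of R) ⟶ Spec (CommRingCat.of K) :=
  Spec.map (CommRingCat.ofHom (algebraMap K R))

/-- `A(R)`. -/
abbrev Pt (R : Type u) [CommRing R] [Algebra K R] : Type u := SchemeHomOver (str K R) f

theorem specMap_str {R S : Type u} [CommRing R] [Algebra K R] [CommRing S] [Algebra K S]
    (φ : R →ₐ[K] S) : Spec.map (CommRingCat.ofHom φ.toRingHom) ≫ str K R = str K S := by
  rw [str, str, ← Spec.map_comp, ← CommRingCat.ofHom_comp]
  congr 2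
  exact φ.comp_algebraMap

/-- functoriality of `A(R)` -/
def ptMap {R S : Type u} [CommRing R] [Algebra K R] [CommRing S] [Algebra K S]
    (φ : R →ₐ[K] S) (x : Pt f R) : Pt f S :=
  schemeHomOverComp (Spec.map (CommRingCat.ofHom φ.toRingHom)) (specMap_str φ) x

/-- `K → 𝒪_{A,a}`. -/
def kToStalk (a : A) : K →+* A.presheaf.stalk a :=
  ((Scheme.ΓSpecIso (CommRingCat.of K)).inv ≫ f.appTop ≫ A.presheaf.germ ⊤ a trivial).hom

set_option backward.isDefEq.respectTransparency false in
theorem stalkSpecializes_kToStalk {a b : A} (h : b ⤳ a) :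
    (A.presheaf.stalkSpecializes h).hom.comp (kToStalk f a) = kToStalk f b := by
  rw [kToStalk, kToStalk, ← CommRingCat.hom_comp]
  simp only [Category.assoc, TopCat.Presheaf.germ_stalkSpecializes]

set_option backward.isDefEq.respectTransparency false in
theorem stalkClosedPointTo_kToStalk {R : Type u} [CommRing R] [Algebra K R] [IsLocalRing R]
    (x : Pt f R) (c : K) :
    (Scheme.stalkClosedPointTo x.1).hom (kToStalk f (x.1 (closedPoint R)) c) = algebraMap K R c := by
  have h1 : (Scheme.ΓSpecIso (CommRingCat.of K)).inv ≫ f.appTop ≫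
      A.presheaf.germ ⊤ (x.1 (closedPoint R)) trivial ≫ Scheme.stalkClosedPointTo x.1 =
      CommRingCat.ofHom (algebraMap K R) := by
    rw [Scheme.germ_stalkClosedPointTo]
    have h2 := congrArg Scheme.Hom.appTop x.2
    rw [Scheme.Hom.comp_appTop] at h2
    have h3 := Scheme.ΓSpecIso_inv_naturality (CommRingCat.ofHom (algebraMap K R))
    simp only [Iso.trans_hom, Functor.mapIso_hom, Iso.op_hom, eqToIso.hom]
    have h4 : Scheme.Hom.app x.1 ⊤ ≫ (Spec (CommRingCat.of R)).presheaf.map
        (eqToHom (Scheme.preimage_eq_top_of_closedPoint_mem x.1 (U := ⊤) trivial).symm).op =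
        Scheme.Hom.appTop x.1 := by
      rw [Scheme.Hom.app_eq_appLE, Scheme.Hom.appLE_map]
      rfl
    rw [reassoc_of% h4, reassoc_of% h2, ← reassoc_of% h3, Iso.inv_hom_id, Category.comp_id]
  have := congrArg (fun g => g.hom c) h1
  simpa [kToStalk] using this

/-- The local ring `𝒪_{A,a}` as a `K`-algebra. -/
def St (_f : A ⟶ Spec (CommRingCat.of K)) (a : A) : Type u := A.presheaf.stalk a

instance (a : A) : CommRing (St f a) := inferInstanceAs (CommRing (A.presheaf.stalk a))
instance (a : A) : IsLocalRing (St f a) := inferInstanceAs (IsLocalRing (A.presheaf.stalk a))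
instance (a : A) : Algebra K (St f a) := (kToStalk f a).toAlgebra

/-- The function field as a `K`-algebra. -/
def FF (_f : A ⟶ Spec (CommRingCat.of K)) [IsIntegral A] : Type u := A.functionField

variable [IsIntegral A]

instance : Field (FF f) := inferInstanceAs (Field A.functionField)
instance : Algebra K (FF f) := (kToStalk f (genericPoint A)).toAlgebra
instance (a : A) : Algebra (St f a) (FF f) :=
  inferInstanceAs (Algebra (A.presheaf.stalk a) A.functionField)
instance (a : A) : IsDomain (St f a) := inferInstanceAs (IsDomain (A.presheaf.stalk a))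
instance (a : A) : IsFractionRing (St f a) (FF f) :=
  inferInstanceAs (IsFractionRing (A.presheaf.stalk a) A.functionField)

instance (a : A) : IsScalarTower K (St f a) (FF f) := by
  refine IsScalarTower.of_algebraMap_eq' ?_
  exact (stalkSpecializes_kToStalk f (genericPoint_specializes a)).symm

/-- The local ring `𝒪_{A,a}` as a subalgebra of the function field. -/
def O (a : A) : Subalgebra K (FF f) := (IsScalarTower.toAlgHom K (St f a) (FF f)).range

/-- `𝒪_{A,a} ≃ O a`. -/
def stEquiv (a : A) : St f a ≃ₐ[K] O f a :=
  AlgEquiv.ofInjective (IsScalarTower.toAlgHom K (St f a) (FF f))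
    (IsFractionRing.injective (St f a) (FF f))

omit [IsIntegral A] in
/-- the image of the closed point -/
def ctr {R : Type u} [CommRing R] [Algebra K R] [IsLocalRing R] (x : Pt f R) : A :=
  x.1 (closedPoint R)

/-- the local homomorphism `𝒪_{A, ctr x} → R` -/
def evSt {R : Type u} [CommRing R] [Algebra K R] [IsLocalRing R] (x : Pt f R) :
    St f (ctr f x) →ₐ[K] R :=
  { (Scheme.stalkClosedPointTo x.1).hom with
    commutes' := stalkClosedPointTo_kToStalk f x }

open Classical in
/-- `evSt` extended by `0` to the whole function field -/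
def ev {R : Type u} [CommRing R] [Algebra K R] [IsLocalRing R] (x : Pt f R) (r : FF f) : R :=
  if h : r ∈ O f (ctr f x) then evSt f x ((stEquiv f (ctr f x)).symm ⟨r, h⟩) else 0

end Fermat.Agent.S26.Sch
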