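import Fermat.Agent.S26.Scheme.Local

set_option autoImplicit false
universe u
open CategoryTheory CategoryTheory.Limits AlgebraicGeometry NeronModelInfra GoodReductionJacobian
open IsLocalRing
noncomputable section
namespace Fermat.Agent.S26.Sch


set_option backward.isDefEq.respectTransparency false in
theorem stalkClosedPointTo_SpecMap_comp {X : Scheme.{u}} {R S : CommRingCat.{u}} [IsLocalRing R]
    [IsLocalRing S] (φ : R ⟶ S) (g : Spec R ⟶ X)
    (h : (Spec.map φ ≫ g) (closedPoint S) ⤳ g (closedPoint R)) :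
    X.presheaf.stalkSpecializes h ≫ Scheme.stalkClosedPointTo (Spec.map φ ≫ g) =
      Scheme.stalkClosedPointTo g ≫ φ := by
  refine TopCat.Presheaf.stalk_hom_ext _ fun U hxU ↦ ?_
  rw [TopCat.Presheaf.germ_stalkSpecializes_assoc, Scheme.germ_stalkClosedPointTo,
    Scheme.germ_stalkClosedPointTo_assoc]
  simp only [Scheme.Hom.comp_app, Category.assoc, Iso.trans_hom, Functor.mapIso_hom, Iso.op_hom,
    eqToIso.hom]
  congr 1
  have htop : g ⁻¹ᵁ U = ⊤ := Scheme.preimage_eq_top_of_closedPoint_mem g hxU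
  rw [← Scheme.ΓSpecIso_naturality]
  simp only [(Spec.map φ).app_eq_appLE, Scheme.Hom.appLE_map_assoc, Scheme.Hom.map_appLE_assoc, Scheme.Hom.appTop]
  rfl


variable {K : Type u} [Field K] {A : Scheme.{u}} (f : A ⟶ Spec (CommRingCat.of K))

theorem fromSpecStalk_comp (a : A) :
    A.fromSpecStalk a ≫ f = Spec.map (CommRingCat.ofHom (kToStalk f a)) := by
  have h1 : f = A.toSpecΓ ≫ Spec.map f.appTop ≫ Spec.map (Scheme.ΓSpecIso (CommRingCat.of K)).inv := by
    rw [← Scheme.toSpecΓ_naturality_assoc, toSpecΓ_SpecMap_ΓSpecIso_inv, Category.comp_id]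
  conv_lhs => rw [h1]
  rw [Scheme.fromSpecStalk_toSpecΓ_assoc, ← Spec.map_comp, ← Spec.map_comp]
  rfl

variable [IsIntegral A]

/-! ## (d) Eval.lean -/
section Eval
variable {R S : Type u} [CommRing R] [Algebra K R] [IsLocalRing R] [CommRing S] [Algebra K S] [IsLocalRing S]

theorem ev_of_mem (x : Pt f R) (r : FF f) (h : r ∈ O f (ctr f x)) :
    ev f x r = evSt f x ((stEquiv f (ctr f x)).symm ⟨r, h⟩) := dif_pos h

/-- evaluation as an algebra homomorphism on `O` -/
def evO (x : Pt f R) : O f (ctr f x) →ₐ[K] R := (evSt f x).comp (stEquiv f (ctr f x)).symm.toAlgHom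

theorem ev_eq_evO (x : Pt f R) (r : FF f) (h : r ∈ O f (ctr f x)) : ev f x r = evO f x ⟨r, h⟩ :=
  ev_of_mem f x r h

theorem ev_add (x : Pt f R) (r s : FF f) (hr : r ∈ O f (ctr f x)) (hs : s ∈ O f (ctr f x)) :
    ev f x (r + s) = ev f x r + ev f x s := by
  rw [ev_eq_evO f x _ hr, ev_eq_evO f x _ hs, ev_eq_evO f x _ (add_mem hr hs), ← map_add]
  rfl

theorem ev_mul (x : Pt f R) (r s : FF f) (hr : r ∈ O f (ctr f x)) (hs : s ∈ O f (ctr f x)) :
    ev f x (r * s) = ev f x r * ev f x s := by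
  rw [ev_eq_evO f x _ hr, ev_eq_evO f x _ hs, ev_eq_evO f x _ (mul_mem hr hs), ← map_mul]
  rfl

theorem ev_algebraMap (x : Pt f R) (c : K) : ev f x (algebraMap K (FF f) c) = algebraMap K R c := by
  rw [ev_eq_evO f x _ (Subalgebra.algebraMap_mem _ c)]
  exact (evO f x).commutes c

theorem ev_algebraMap_ctr (x : Pt f R) (z : St f (ctr f x)) :
    ev f x (algebraMap (St f (ctr f x)) (FF f) z) = evSt f x z := by
  have hmem : algebraMap (St f (ctr f x)) (FF f) z ∈ O f (ctr f x) := ⟨z, rfl⟩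
  rw [ev_of_mem f x _ hmem]
  congr 1
  exact (stEquiv f (ctr f x)).symm_apply_apply z

omit [IsIntegral A] in
/-- the specialisation map on local rings -/
def spSt {a b : A} (h : b ⤳ a) : St f a →ₐ[K] St f b :=
  { (A.presheaf.stalkSpecializes h).hom with
    commutes' := fun c => congrArg (fun g => g c) (stalkSpecializes_kToStalk f h) }

set_option backward.isDefEq.respectTransparency false in
theorem algebraMap_spSt {a b : A} (h : b ⤳ a) (z : St f a) :
    algebraMap (St f b) (FF f) (spSt f h z) = algebraMap (St f a) (FF f) z := by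
  have := A.presheaf.stalkSpecializes_comp (genericPoint_specializes b) h
  exact congrArg (fun g => g.hom z) this

theorem ev_algebraMap_st (x : Pt f R) (a : A) (h : ctr f x ⤳ a) (z : St f a) :
    ev f x (algebraMap (St f a) (FF f) z) = evSt f x (spSt f h z) := by
  rw [← algebraMap_spSt f h z, ev_algebraMap_ctr]

theorem ev_isUnit (x : Pt f R) (r : FF f) (hr : r ∈ O f (ctr f x)) (hu : IsUnit (ev f x r)) :
    r⁻¹ ∈ O f (ctr f x) := by
  obtain ⟨z, rfl⟩ := hr
  change IsUnit (ev f x (algebraMap (St f (ctr f x)) (FF f) z)) at hu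
  rw [ev_algebraMap_ctr] at hu
  have hz : IsUnit z := by
    have : IsLocalHom (Scheme.stalkClosedPointTo x.1).hom := inferInstance
    exact this.map_nonunit z hu
  obtain ⟨w, hw⟩ := hz.exists_right_inv
  refine ⟨w, ?_⟩
  change algebraMap (St f (ctr f x)) (FF f) w = (algebraMap (St f (ctr f x)) (FF f) z)⁻¹
  apply eq_inv_of_mul_eq_one_right
  rw [← map_mul, hw, map_one]

set_option backward.isDefEq.respectTransparency false in
theorem pt_ext (x y : Pt f R) (h : ctr f x = ctr f y) (h' : ∀ r ∈ O f (ctr f x), ev f x r = ev f y r) :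
    x = y := by
  apply Subtype.ext
  apply (SpecToEquivOfLocalRing A (CommRingCat.of R)).injective
  rw [SpecToEquivOfLocalRing_eq_iff]
  refine ⟨h, ?_⟩
  ext z
  have hsp : ctr f y ⤳ ctr f x := by rw [h]
  have h1 := ev_algebraMap_st f y (ctr f x) hsp z
  have h2 := ev_algebraMap_ctr f x z
  have h3 := h' _ ⟨z, rfl⟩
  have h4 : evSt f x z = evSt f y (spSt f hsp z) := by
    rw [← h1, ← h2]
    exact h3
  simp only [SpecToEquivOfLocalRing_apply_snd_coe, TopCat.Presheaf.stalkCongr_hom]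
  exact h4

omit [IsIntegral A] in
theorem ctr_ptMap_specializes (φ : R →ₐ[K] S) (x : Pt f R) : ctr f (ptMap f φ x) ⤳ ctr f x := by
  have h1 : (Spec.map (CommRingCat.ofHom φ.toRingHom)) (closedPoint S) ⤳ closedPoint R :=
    IsLocalRing.specializes_closedPoint _
  exact h1.map x.1.continuous

theorem ctr_map_le (φ : R →ₐ[K] S) (x : Pt f R) : O f (ctr f x) ≤ O f (ctr f (ptMap f φ x)) :=
  O_le_of_specializes f (ctr_ptMap_specializes f φ x)

theorem ev_map (φ : R →ₐ[K] S) (x : Pt f R) (r : FF f) (hr : r ∈ O f (ctr f x)) :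
    ev f (ptMap f φ x) r = φ (ev f x r) := by
  obtain ⟨z, rfl⟩ := hr
  have h1 := ev_algebraMap_st f (ptMap f φ x) (ctr f x) (ctr_ptMap_specializes f φ x) z
  have h2 := ev_algebraMap_ctr f x z
  have h3 := stalkClosedPointTo_SpecMap_comp (CommRingCat.ofHom φ.toRingHom) x.1
    (ctr_ptMap_specializes f φ x)
  have h4 := congrArg (fun g => g.hom z) h3
  exact h1.trans (h4.trans (congrArg φ h2.symm))

set_option backward.isDefEq.respectTransparency false in
theorem exists_pt (a : A) (φ : O f a →ₐ[K] R) (hφ : IsLocalHom φ.toRingHom) :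
    ∃ x : Pt f R, ctr f x = a ∧ ∀ r : O f a, ev f x r = φ r := by
  let ψ : St f a →ₐ[K] R := φ.comp (stEquiv f a).toAlgHom
  let ψ' : A.presheaf.stalk a ⟶ CommRingCat.of R := CommRingCat.ofHom ψ.toRingHom
  have hloc : IsLocalHom ψ'.hom := by
    constructor
    intro z hz
    have h1 : IsUnit (stEquiv f a z) := hφ.map_nonunit _ hz
    exact (MulEquiv.isUnit_map (stEquiv f a)).mp h1
  have hover : (Spec.map ψ' ≫ A.fromSpecStalk a) ≫ f = str K R := by
    rw [Category.assoc, fromSpecStalk_comp, ← Spec.map_comp]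
    congr 1
    ext c
    exact ψ.commutes c
  have hctr : (Spec.map ψ' ≫ A.fromSpecStalk a) (closedPoint R) = a := by
    rw [Scheme.Hom.comp_apply, Spec_closedPoint, Scheme.fromSpecStalk_closedPoint]
  refine ⟨⟨Spec.map ψ' ≫ A.fromSpecStalk a, hover⟩, hctr, fun r => ?_⟩
  have hsp : ctr f (⟨Spec.map ψ' ≫ A.fromSpecStalk a, hover⟩ : Pt f R) ⤳ a := by
    rw [show ctr f (⟨Spec.map ψ' ≫ A.fromSpecStalk a, hover⟩ : Pt f R) = a from hctr]
  have hr : (r : FF f) = algebraMap (St f a) (FF f) ((stEquiv f a).symm r) := by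
    have := (stEquiv f a).apply_symm_apply r
    exact (congrArg Subtype.val this).symm
  rw [hr, ev_algebraMap_st f _ a hsp]
  have hsp' : (Spec.map ψ' ≫ A.fromSpecStalk a) (closedPoint R) ⤳ a := hsp
  have h3 : A.presheaf.stalkSpecializes hsp' ≫
      Scheme.stalkClosedPointTo (Spec.map ψ' ≫ A.fromSpecStalk a) = ψ' := by
    refine TopCat.Presheaf.stalk_hom_ext _ fun U hxU ↦ ?_
    rw [TopCat.Presheaf.germ_stalkSpecializes_assoc,
      Scheme.germ_stalkClosedPointTo_Spec_fromSpecStalk]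
  have h4 := congrArg (fun g => g.hom ((stEquiv f a).symm r)) h3
  refine h4.trans ?_
  show φ (stEquiv f a ((stEquiv f a).symm r)) = φ r
  rw [(stEquiv f a).apply_symm_apply]

end Eval

end Fermat.Agent.S26.Sch
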