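import Fermat.Agent.S26.Scheme.Chart
import Fermat.Agent.S26.UFD.Smooth

set_option autoImplicit false
universe u
open CategoryTheory CategoryTheory.Limits AlgebraicGeometry NeronModelInfra GoodReductionJacobian
open IsLocalRing
noncomputable section
namespace Fermat.Agent.S26.Sch
namespace Integral

/-- residue field of a localisation at a maximal ideal of a f.g. algebra over an alg. closed field -/
theorem bijective_algebraMap_residueField (K R Rm : Type*) [Field K] [IsAlgClosed K] [CommRing R]
    [Algebra K R] [Algebra.FiniteType K R] (m : Ideal R) [m.IsMaximal]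
    [CommRing Rm] [Algebra R Rm] [Algebra K Rm] [IsScalarTower K R Rm] [IsLocalization.AtPrime Rm m]
    [IsLocalRing Rm] :
    Function.Bijective (algebraMap K (ResidueField Rm)) := by
  letI : Field (R ⧸ m) := Ideal.Quotient.field m
  have hfin : Module.Finite K (R ⧸ m) := finite_of_finite_type_of_isJacobsonRing K (R ⧸ m)
  have h1 : Function.Bijective (algebraMap K (R ⧸ m)) :=
    IsAlgClosed.algebraMap_bijective_of_isIntegral
  let e : R ⧸ m ≃+* Rm ⧸ maximalIdeal Rm := IsLocalization.AtPrime.equivQuotMaximalIdeal m Rm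
  have h2 : (algebraMap K (ResidueField Rm) : K → ResidueField Rm) = e ∘ algebraMap K (R ⧸ m) := by
    funext c
    show _ = e (Ideal.Quotient.mk m (algebraMap K R c))
    rw [IsLocalization.AtPrime.equivQuotMaximalIdeal_apply_mk, ← IsScalarTower.algebraMap_apply]
    rfl
  rw [h2]
  exact e.bijective.comp h1

theorem isDomain_localization_of_smooth (K R Rm : Type*) [Field K] [IsAlgClosed K] [CommRing R]
    [Algebra K R] [Algebra.Smooth K R] (m : Ideal R) [m.IsMaximal]
    [CommRing Rm] [Algebra R Rm] [Algebra K Rm] [IsScalarTower K R Rm]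
    [IsLocalization.AtPrime Rm m] : IsDomain Rm := by
  have : Algebra.FiniteType K R := inferInstance
  have : IsNoetherianRing R := Algebra.FiniteType.isNoetherianRing K R
  have : IsLocalRing Rm := IsLocalization.AtPrime.isLocalRing Rm m
  have : IsNoetherianRing Rm := IsLocalization.isNoetherianRing m.primeCompl Rm inferInstance
  have : Algebra.FormallySmooth R Rm := Algebra.FormallySmooth.of_isLocalization m.primeCompl
  have : Algebra.FormallySmooth K Rm := Algebra.FormallySmooth.comp K R Rm
  exact isDomain_of_formallySmooth K Rm (bijective_algebraMap_residueField K R Rm m)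


theorem irreducibleSpace_of_connected {X : Type*} [TopologicalSpace X] [ConnectedSpace X]
    (h : ∀ x : X, ∃ U : Set X, IsOpen U ∧ x ∈ U ∧ IsIrreducible U) : IrreducibleSpace X := by
  choose U hUo hxU hUirr using h
  obtain ⟨x₀⟩ : Nonempty X := inferInstance
  have hopen : IsOpen (closure (U x₀)) := by
    rw [isOpen_iff_forall_mem_open]
    intro y hy
    refine ⟨U y, ?_, hUo y, hxU y⟩
    have hne : (U y ∩ U x₀).Nonempty := mem_closure_iff.mp hy (U y) (hUo y) (hxU y)
    have h1 := subset_closure_inter_of_isPreirreducible_of_isOpen (hUirr y).isPreirreducible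
      (hUo x₀) hne
    exact h1.trans (closure_mono Set.inter_subset_right)
  have hclopen : IsClopen (closure (U x₀)) := ⟨isClosed_closure, hopen⟩
  have huniv : closure (U x₀) = Set.univ := hclopen.eq_univ ⟨x₀, subset_closure (hxU x₀)⟩
  rw [irreducibleSpace_def]
  show IsIrreducible (Set.univ : Set X)
  rw [← huniv]
  exact (hUirr x₀).closure

theorem exists_irreducible_basicOpen (R : Type*) [CommRing R] [IsNoetherianRing R]
    (h : ∀ (m : Ideal R) [m.IsMaximal], IsDomain (Localization.AtPrime m)) (x : PrimeSpectrum R) :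
    ∃ r : R, x ∈ PrimeSpectrum.basicOpen r ∧
      IsIrreducible (PrimeSpectrum.basicOpen r : Set (PrimeSpectrum R)) := by
  classical
  obtain ⟨m, hm, hxm⟩ := Ideal.exists_le_maximal x.asIdeal x.2.ne_top
  have := h m
  set p₀ : Ideal R := RingHom.ker (algebraMap R (Localization.AtPrime m)) with hp₀
  have hp₀prime : p₀.IsPrime := RingHom.ker_isPrime _
  have hp₀le : ∀ q : Ideal R, q.IsPrime → q ≤ m → p₀ ≤ q := by
    intro q hq hqm a ha
    rw [hp₀, RingHom.mem_ker, IsLocalization.map_eq_zero_iff m.primeCompl] at ha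
    obtain ⟨s, hs⟩ := ha
    have : (s : R) * a ∈ q := by rw [hs]; exact q.zero_mem
    exact (hq.mem_or_mem this).resolve_left fun hsq => s.2 (hqm hsq)
  have hfin : (minimalPrimes R).Finite := minimalPrimes.finite_of_isNoetherianRing R
  have hex : ∀ q ∈ minimalPrimes R, q ≠ p₀ → ∃ a ∈ q, a ∉ m := by
    intro q hq hne
    by_contra hcon
    push Not at hcon
    have hqm : q ≤ m := hcon
    have h1 : p₀ ≤ q := hp₀le q hq.1.1 hqm
    exact hne (le_antisymm (hq.2 ⟨hp₀prime, bot_le⟩ h1) h1)
  let c : Ideal R → R := fun q => if hq : q ∈ minimalPrimes R ∧ q ≠ p₀ then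
    (hex q hq.1 hq.2).choose else 1
  have hc1 : ∀ q, c q ∉ m := by
    intro q
    by_cases hq : q ∈ minimalPrimes R ∧ q ≠ p₀
    · simp only [c, dif_pos hq]
      exact (hex q hq.1 hq.2).choose_spec.2
    · simp only [c, dif_neg hq]
      exact fun h1 => hm.ne_top ((Ideal.eq_top_iff_one _).mpr h1)
  have hc2 : ∀ q ∈ minimalPrimes R, q ≠ p₀ → c q ∈ q := by
    intro q hq hne
    have hq' : q ∈ minimalPrimes R ∧ q ≠ p₀ := ⟨hq, hne⟩
    simp only [c, dif_pos hq']
    exact (hex q hq hne).choose_spec.1
  let r : R := ∏ q ∈ hfin.toFinset, c q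
  have hrm : r ∉ m := by
    intro hr
    obtain ⟨q, -, hq⟩ := (hm.isPrime.prod_mem_iff).mp hr
    exact hc1 q hq
  have hsub : (PrimeSpectrum.basicOpen r : Set (PrimeSpectrum R)) ⊆ PrimeSpectrum.zeroLocus p₀ := by
    intro y hy
    obtain ⟨q, hq, hqy⟩ := Ideal.exists_minimalPrimes_le (bot_le : (⊥ : Ideal R) ≤ y.asIdeal)
    by_cases hne : q = p₀
    · rw [PrimeSpectrum.mem_zeroLocus]
      exact hne ▸ hqy
    · exfalso
      apply hy
      apply hqy
      exact Ideal.mem_of_dvd _ (Finset.dvd_prod_of_mem c (hfin.mem_toFinset.mpr hq)) (hc2 q hq hne)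
  refine ⟨r, fun hr => hrm (hxm hr), ⟨x, fun hr => hrm (hxm hr)⟩, ?_⟩
  have hirr : IsIrreducible (PrimeSpectrum.zeroLocus (p₀ : Set R)) := by
    rw [PrimeSpectrum.isIrreducible_zeroLocus_iff, hp₀prime.radical]
    exact hp₀prime
  exact hirr.isPreirreducible.open_subset (PrimeSpectrum.basicOpen r).2 hsub

end Integral

variable {K : Type u} [Field K] {A : Scheme.{u}} (f : A ⟶ Spec (CommRingCat.of K))

theorem connectedSpace_of_abelian (hA : AbelianSchemePropertyBundle K f) : ConnectedSpace A := by
  have h := hA.connectedFibres (⊥ : PrimeSpectrum K)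
  refine connectedSpace_iff_univ.mpr ?_
  convert h using 1
  ext x
  simp only [Set.mem_preimage, Set.mem_univ, true_iff]
  exact Subsingleton.elim (α := PrimeSpectrum K) _ _

theorem isDomain_localization_sec [IsAlgClosed K] [Smooth f] {U : A.Opens} (hU : IsAffineOpen U)
    (m : Ideal (Sec f U)) [m.IsMaximal] : IsDomain (Localization.AtPrime m) := by
  have := smooth_sec f hU
  exact Integral.isDomain_localization_of_smooth K (Sec f U) (Localization.AtPrime m) m

theorem isReduced_sec [IsAlgClosed K] [Smooth f] {U : A.Opens} (hU : IsAffineOpen U) :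
    _root_.IsReduced (Sec f U) := by
  apply isReduced_ofLocalizationMaximal
  intro m hm
  have := isDomain_localization_sec f hU m
  infer_instance

theorem isReduced_st [IsAlgClosed K] [Smooth f] {U : A.Opens} (hU : IsAffineOpen U) (y : U) :
    _root_.IsReduced (St f y.1) :=
  isReduced_localizationPreserves (primeOf f hU y).primeCompl (St f y.1) (isReduced_sec f hU)

theorem isIntegral_of_abelian [IsAlgClosed K] (hA : AbelianSchemePropertyBundle K f) : IsIntegral A := by
  have := hA.smooth
  have := connectedSpace_of_abelian f hA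
  have hred : IsReduced A := by
    apply +allowSynthFailures isReduced_of_isReduced_stalk
    intro x
    obtain ⟨_, ⟨U, hU', rfl⟩, hxU, -⟩ :=
      A.isBasis_affineOpens.exists_subset_of_mem_open (Set.mem_univ x) isOpen_univ
    have hU : IsAffineOpen U := hU'
    exact isReduced_st f hU ⟨x, hxU⟩
  have hirr : IrreducibleSpace A := by
    apply Integral.irreducibleSpace_of_connected
    intro x
    obtain ⟨_, ⟨U, hU', rfl⟩, hxU, -⟩ :=
      A.isBasis_affineOpens.exists_subset_of_mem_open (Set.mem_univ x) isOpen_univ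
    have hU : IsAffineOpen U := hU'
    have := smooth_sec f hU
    have : IsNoetherianRing (Sec f U) := Algebra.FiniteType.isNoetherianRing K (Sec f U)
    obtain ⟨r, hr, hirr⟩ := Integral.exists_irreducible_basicOpen (Sec f U)
      (fun m _ => isDomain_localization_sec f hU m) (hU.primeIdealOf ⟨x, hxU⟩)
    refine ⟨hU.fromSpec '' (PrimeSpectrum.basicOpen r : Set (PrimeSpectrum (Sec f U))), ?_, ?_, ?_⟩
    · exact hU.fromSpec.isOpenEmbedding.isOpenMap _ (PrimeSpectrum.basicOpen r).2
    · exact ⟨_, hr, hU.fromSpec_primeIdealOf ⟨x, hxU⟩⟩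
    · exact hirr.image _ hU.fromSpec.continuous.continuousOn
  exact isIntegral_of_irreducibleSpace_of_isReduced A

end Fermat.Agent.S26.Sch
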