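import Fermat.Agent.S26.Scheme.Chart

set_option autoImplicit false
universe u
open CategoryTheory CategoryTheory.Limits AlgebraicGeometry NeronModelInfra GoodReductionJacobian
open IsLocalRing
noncomputable section
namespace Fermat.Agent.S26.Sch

variable {K : Type u} [Field K] {A : Scheme.{u}} (f : A ⟶ Spec (CommRingCat.of K))

variable [IsIntegral A]

/-! ## (c) Local.lean -/
theorem isLocalRing_O (a : A) : IsLocalRing (O f a) :=
  (stEquiv f a).toRingEquiv.isLocalRing

theorem mem_O_iff (a : A) (r : FF f) : r ∈ O f a ↔ ∃ z : St f a, algebraMap (St f a) (FF f) z = r :=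
  Iff.rfl

theorem exists_fraction (a : A) (r : FF f) : ∃ s t : O f a, t ≠ 0 ∧ r * t = s := by
  obtain ⟨⟨s, t⟩, h⟩ := IsLocalization.surj (nonZeroDivisors (St f a)) r
  refine ⟨⟨algebraMap _ _ s, s, rfl⟩, ⟨algebraMap _ _ t.1, t.1, rfl⟩, ?_, h⟩
  intro h0
  have h1 : algebraMap (St f a) (FF f) t.1 = 0 := congrArg Subtype.val h0
  exact nonZeroDivisors.ne_zero t.2 ((IsFractionRing.injective (St f a) (FF f)) (by rw [h1, map_zero]))

set_option backward.isDefEq.respectTransparency false in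
theorem O_le_of_specializes {a b : A} (h : b ⤳ a) : O f a ≤ O f b := by
  rintro _ ⟨z, rfl⟩
  refine ⟨(A.presheaf.stalkSpecializes h).hom z, ?_⟩
  have := A.presheaf.stalkSpecializes_comp (genericPoint_specializes b) h
  exact congrArg (fun g => g.hom z) this

/-- `Γ(A,U) → K(A)` -/
def secToFF (U : A.Opens) [Nonempty U] : Sec f U →ₐ[K] FF f :=
  { (A.germToFunctionField U).hom with
    commutes' := fun c => by
      have := germ_kToSec f (U := U) ⟨genericPoint A,
        ((genericPoint_spec A).mem_open_set_iff U.isOpen).mpr (by simpa using ‹Nonempty U›)⟩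
      exact congrArg (fun g => g c) this }

theorem secToFF_injective (U : A.Opens) [Nonempty U] : Function.Injective (secToFF f U) :=
  A.germToFunctionField_injective U

theorem algebraMap_st_ff {U : A.Opens} [Nonempty U] (y : U) (s : Sec f U) :
    algebraMap (St f y.1) (FF f) (algebraMap (Sec f U) (St f y.1) s) = secToFF f U s :=
  Scheme.algebraMap_germ_eq_germToFunctionField A y.2 s

theorem mem_O_iff_sec {U : A.Opens} [Nonempty U] (hU : IsAffineOpen U) (y : U) (r : FF f) :
    r ∈ O f y.1 ↔ ∃ s t : Sec f U, t ∉ primeOf f hU y ∧ r * secToFF f U t = secToFF f U s := by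
  constructor
  · rintro ⟨z, rfl⟩
    obtain ⟨⟨s, t⟩, h⟩ := IsLocalization.surj (primeOf f hU y).primeCompl z
    refine ⟨s, t.1, t.2, ?_⟩
    rw [← algebraMap_st_ff f y, ← algebraMap_st_ff f y, ← h, map_mul]
    rfl
  · rintro ⟨s, t, ht, h⟩
    refine ⟨IsLocalization.mk' (St f y.1) s (⟨t, ht⟩ : (primeOf f hU y).primeCompl), ?_⟩
    have ht0 : secToFF f U t ≠ 0 := by
      intro h0
      have : t = 0 := secToFF_injective f U (by simpa using h0)
      exact ht (this ▸ Ideal.zero_mem _)
    apply mul_right_cancel₀ ht0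
    rw [h, ← algebraMap_st_ff f y, ← algebraMap_st_ff f y]
    show algebraMap (St f y.1) (FF f) _ * _ = _
    rw [← map_mul, IsLocalization.mk'_spec]

omit [IsIntegral A] in
theorem finiteType_sec [LocallyOfFiniteType f] {U : A.Opens} (hU : IsAffineOpen U) :
    Algebra.FiniteType K (Sec f U) := by
  have h1 : (f.appLE ⊤ U le_top).hom.FiniteType :=
    LocallyOfFiniteType.finiteType_appLE f (isAffineOpen_top _) hU le_top
  have h2 : ((Scheme.ΓSpecIso (CommRingCat.of K)).inv).hom.FiniteType :=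
    RingHom.FiniteType.of_surjective _
      (Scheme.ΓSpecIso (CommRingCat.of K)).symm.commRingCatIsoToRingEquiv.surjective
  have h3 : (kToSec f U).FiniteType := h1.comp h2
  exact h3

omit [IsIntegral A] in
theorem exists_point_of_prime {U : A.Opens} (hU : IsAffineOpen U) (q : Ideal (Sec f U))
    [hq : q.IsPrime] : ∃ y : U, primeOf f hU y = q := by
  have hmem : hU.fromSpec ⟨q, hq⟩ ∈ U := by
    have : hU.fromSpec ⟨q, hq⟩ ∈ Set.range hU.fromSpec := ⟨_, rfl⟩
    rwa [hU.range_fromSpec] at this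
  refine ⟨⟨_, hmem⟩, ?_⟩
  have h1 := hU.fromSpec_primeIdealOf ⟨_, hmem⟩
  have h2 := hU.fromSpec.isOpenEmbedding.injective h1
  exact congrArg PrimeSpectrum.asIdeal h2

theorem exists_chart [LocallyOfFiniteType f] (a : A) : ∃ R₀ : Subalgebra K (FF f), R₀.FG ∧
    (∀ q : Ideal R₀, q.IsPrime → ∃ b : A, ∀ r : FF f, r ∈ O f b ↔ ∃ s t : R₀, t ∉ q ∧ r * t = s) ∧
    (∃ q : Ideal R₀, q.IsPrime ∧ ∀ r : FF f, r ∈ O f a ↔ ∃ s t : R₀, t ∉ q ∧ r * t = s) := by
  obtain ⟨_, ⟨U, hU', rfl⟩, hxU, -⟩ :=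
    A.isBasis_affineOpens.exists_subset_of_mem_open (Set.mem_univ a) isOpen_univ
  have hU : IsAffineOpen U := hU'
  have : Nonempty U := ⟨⟨a, hxU⟩⟩
  have hft := finiteType_sec f hU
  let e : Sec f U ≃ₐ[K] (secToFF f U).range := AlgEquiv.ofInjective _ (secToFF_injective f U)
  have he : ∀ s, ((e s : (secToFF f U).range) : FF f) = secToFF f U s := fun s => rfl
  have key : ∀ (y : U) (r : FF f), r ∈ O f y.1 ↔
      ∃ s t : (secToFF f U).range, t ∉ (primeOf f hU y).comap e.symm.toRingEquiv ∧ r * t = s := by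
    intro y r
    rw [mem_O_iff_sec f hU y]
    constructor
    · rintro ⟨s, t, ht, h⟩
      refine ⟨e s, e t, ?_, h⟩
      rw [Ideal.mem_comap]
      simpa using ht
    · rintro ⟨s, t, ht, h⟩
      refine ⟨e.symm s, e.symm t, ht, ?_⟩
      rw [← he, ← he, e.apply_symm_apply, e.apply_symm_apply]
      exact h
  refine ⟨(secToFF f U).range, ?_, ?_, ?_⟩
  · rw [← Algebra.map_top]
    exact Subalgebra.FG.map _ hft.1
  · intro q hq
    have hq' : (q.comap e.toRingEquiv).IsPrime := Ideal.comap_isPrime _ _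
    obtain ⟨y, hy⟩ := exists_point_of_prime f hU (q.comap e.toRingEquiv)
    refine ⟨y.1, fun r => ?_⟩
    rw [key y r, hy]
    have : (q.comap e.toRingEquiv).comap e.symm.toRingEquiv = q := by
      ext x
      simp [Ideal.mem_comap]
    rw [this]
  · exact ⟨_, Ideal.comap_isPrime _ _, key ⟨a, hxU⟩⟩

end Fermat.Agent.S26.Sch
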