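import Fermat.Agent.S26.Scheme.Defs

set_option autoImplicit false
universe u
open CategoryTheory CategoryTheory.Limits AlgebraicGeometry NeronModelInfra GoodReductionJacobian
open IsLocalRing
noncomputable section
namespace Fermat.Agent.S26.Sch

variable {K : Type u} [Field K] {A : Scheme.{u}} (f : A ⟶ Spec (CommRingCat.of K))

/-! ## (a) Points.lean -/
section Points
variable {R S T : Type u} [CommRing R] [Algebra K R] [CommRing S] [Algebra K S] [CommRing T] [Algebra K T]

theorem ptMap_id (x : Pt f R) : ptMap f (AlgHom.id K R) x = x := by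
  apply Subtype.ext
  show Spec.map (CommRingCat.ofHom (AlgHom.id K R).toRingHom) ≫ x.1 = x.1
  have : CommRingCat.ofHom (AlgHom.id K R).toRingHom = 𝟙 (CommRingCat.of R) := rfl
  rw [this, Spec.map_id, Category.id_comp]

theorem ptMap_comp (φ : R →ₐ[K] S) (ψ : S →ₐ[K] T) (x : Pt f R) :
    ptMap f (ψ.comp φ) x = ptMap f ψ (ptMap f φ x) := by
  apply Subtype.ext
  show Spec.map (CommRingCat.ofHom (ψ.comp φ).toRingHom) ≫ x.1 =
    Spec.map (CommRingCat.ofHom ψ.toRingHom) ≫ Spec.map (CommRingCat.ofHom φ.toRingHom) ≫ x.1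
  have : CommRingCat.ofHom (ψ.comp φ).toRingHom =
      CommRingCat.ofHom φ.toRingHom ≫ CommRingCat.ofHom ψ.toRingHom := rfl
  rw [this, Spec.map_comp, Category.assoc]

variable {f}
/-- the group structure on `A(R)` -/
@[reducible] def ptGrp (L : RelativeGroupLaw K f) (hc : L.IsCommutative) (R : Type u) [CommRing R] [Algebra K R] :
    AddCommGroup (Pt f R) :=
  letI : Add (Pt f R) := ⟨L.mul _⟩
  letI : Zero (Pt f R) := ⟨L.one _⟩
  letI : Neg (Pt f R) := ⟨L.inv _⟩
  { AddGroup.ofLeftAxioms (L.mul_assoc _) (L.one_mul _) (L.inv_mul_cancel _) with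
    add_comm := hc _ }

theorem ptMap_add (L : RelativeGroupLaw K f) (hc : L.IsCommutative) (φ : R →ₐ[K] S) (x y : Pt f R) :
    letI := ptGrp L hc R; letI := ptGrp L hc S
    ptMap f φ (x + y) = ptMap f φ x + ptMap f φ y :=
  L.mul_natural _ _ _ (specMap_str φ) x y

theorem str_self : str K K = 𝟙 (Spec (CommRingCat.of K)) := by
  have : CommRingCat.ofHom (algebraMap K K) = 𝟙 (CommRingCat.of K) := rfl
  rw [str, this, Spec.map_id]

theorem exists_ptEquiv (L : RelativeGroupLaw K f) (hc : L.IsCommutative) :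
    letI := ptGrp L hc K
    ∃ e : Pt f K ≃ SchemeHomOver (𝟙 (Spec (CommRingCat.of K))) f,
      e 0 = L.one (𝟙 (Spec (CommRingCat.of K))) ∧
      ∀ x y, e (x + y) = L.mul (𝟙 (Spec (CommRingCat.of K))) (e x) (e y) := by
  have h1 : 𝟙 (Spec (CommRingCat.of K)) ≫ str K K = 𝟙 (Spec (CommRingCat.of K)) := by
    rw [str_self, Category.id_comp]
  have h2 : 𝟙 (Spec (CommRingCat.of K)) ≫ 𝟙 (Spec (CommRingCat.of K)) = str K K := by
    rw [str_self, Category.id_comp]
  refine ⟨⟨schemeHomOverComp _ h1, schemeHomOverComp _ h2, ?_, ?_⟩, ?_, ?_⟩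
  · intro x
    apply Subtype.ext
    simp
  · intro x
    apply Subtype.ext
    simp
  · exact L.one_natural _ _ _ h1
  · intro x y
    exact L.mul_natural _ _ _ h1 x y
end Points

end Fermat.Agent.S26.Sch
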