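import Fermat.Agent.S26.Scheme.Local

set_option autoImplicit false
universe u
open CategoryTheory CategoryTheory.Limits AlgebraicGeometry NeronModelInfra GoodReductionJacobian
open IsLocalRing
noncomputable section
namespace Fermat.Agent.S26.Sch

theorem trdeg_of_etale_mvPolynomial (K S L : Type u) [Field K] [CommRing S] [IsDomain S]
    [Algebra K S] (n : ℕ) [Algebra (MvPolynomial (Fin n) K) S]
    [IsScalarTower K (MvPolynomial (Fin n) K) S] [Algebra.Etale (MvPolynomial (Fin n) K) S]
    [Field L] [Algebra S L] [Algebra K L] [IsScalarTower K S L] [IsFractionRing S L] :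
    Algebra.trdeg K L = n := by
  set P := MvPolynomial (Fin n) K with hP
  have hflat : Module.Flat P S := inferInstance
  have htf : Module.IsTorsionFree P S := inferInstance
  have hinj : Function.Injective (algebraMap P S) := by
    exact FaithfulSMul.algebraMap_injective P S
  letI : Algebra P L := ((algebraMap S L).comp (algebraMap P S)).toAlgebra
  have : IsScalarTower P S L := IsScalarTower.of_algebraMap_eq' rfl
  have : IsScalarTower K P L := by
    refine IsScalarTower.of_algebraMap_eq' ?_
    rw [IsScalarTower.algebraMap_eq K S L, IsScalarTower.algebraMap_eq K P S,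
      IsScalarTower.algebraMap_eq P S L, RingHom.comp_assoc]
  have hinjL : Function.Injective (algebraMap P L) :=
    (IsFractionRing.injective S L).comp hinj
  have : FaithfulSMul P L := (faithfulSMul_iff_algebraMap_injective P L).mpr hinjL
  letI : Algebra (FractionRing P) L := FractionRing.liftAlgebra P L
  have : IsScalarTower P (FractionRing P) L := FractionRing.isScalarTower_liftAlgebra P L
  have : Algebra.FormallyEtale S L := Algebra.FormallyEtale.of_isLocalization (nonZeroDivisors S)
  have : Algebra.FormallyEtale P L := Algebra.FormallyEtale.comp P S L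
  have : Algebra.FormallyEtale (FractionRing P) L :=
    Algebra.FormallyEtale.localization_base (nonZeroDivisors P)
  have : Algebra.EssFiniteType S L := Algebra.EssFiniteType.of_isLocalization L (nonZeroDivisors S)
  have : Algebra.EssFiniteType P L := Algebra.EssFiniteType.comp P S L
  have : Algebra.EssFiniteType (FractionRing P) L := Algebra.EssFiniteType.of_comp P (FractionRing P) L
  have : Algebra.IsSeparable (FractionRing P) L := (Algebra.FormallyEtale.iff_isSeparable _ _).mp inferInstance
  have : Algebra.IsAlgebraic (FractionRing P) L := inferInstance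
  have : Algebra.IsAlgebraic P L := (IsFractionRing.comap_isAlgebraic_iff (K := FractionRing P)).mpr this
  have h1 := _root_.trdeg_add_eq K P (A := L)
  rw [_root_.trdeg_eq_zero (R := P) (A := L), add_zero, MvPolynomial.trdeg_of_isDomain] at h1
  rw [← h1]
  simp

theorem trdeg_of_standardSmooth (K S L : Type u) [Field K] [CommRing S] [IsDomain S]
    [Algebra K S] (n : ℕ) [Algebra.IsStandardSmoothOfRelativeDimension n K S]
    [Field L] [Algebra S L] [Algebra K L] [IsScalarTower K S L] [IsFractionRing S L] :
    Algebra.trdeg K L = n := by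
  obtain ⟨φ, hφ⟩ := Algebra.IsStandardSmoothOfRelativeDimension.exists_etale_mvPolynomial n K S
  letI : Algebra (MvPolynomial (Fin n) K) S := φ.toRingHom.toAlgebra
  have : IsScalarTower K (MvPolynomial (Fin n) K) S :=
    IsScalarTower.of_algebraMap_eq' φ.comp_algebraMap.symm
  have : Algebra.Etale (MvPolynomial (Fin n) K) S := hφ
  exact trdeg_of_etale_mvPolynomial K S L n

variable {K : Type u} [Field K] {A : Scheme.{u}} (f : A ⟶ Spec (CommRingCat.of K))

theorem exists_standardSmooth_sec (g : ℕ) [SmoothOfRelativeDimension g f] (x : A) :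
    ∃ (V : A.Opens) (_ : IsAffineOpen V) (_ : x ∈ V),
      Algebra.IsStandardSmoothOfRelativeDimension g K (Sec f V) := by
  obtain ⟨U, hU, V, hV, hx, e, hf⟩ :=
    SmoothOfRelativeDimension.exists_isStandardSmoothOfRelativeDimension (n := g) (f := f) x
  have hUtop : U = ⊤ := by
    ext y
    simp only [SetLike.mem_coe, TopologicalSpace.Opens.coe_top, Set.mem_univ, iff_true]
    have : y = f x := Subsingleton.elim (α := PrimeSpectrum K) _ _
    rw [this]
    exact e hx
  subst hUtop
  refine ⟨V, hV, hx, ?_⟩
  have h2 : ((Scheme.ΓSpecIso (CommRingCat.of K)).inv).hom.IsStandardSmoothOfRelativeDimension 0 :=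
    RingHom.IsStandardSmoothOfRelativeDimension.equiv
      (Scheme.ΓSpecIso (CommRingCat.of K)).symm.commRingCatIsoToRingEquiv
  have h3 : (kToSec f V).IsStandardSmoothOfRelativeDimension (g + 0) := hf.comp h2
  exact h3

variable [IsIntegral A]

instance (U : A.Opens) [Nonempty U] : Algebra (Sec f U) (FF f) := (secToFF f U).toRingHom.toAlgebra

instance (U : A.Opens) [Nonempty U] : IsScalarTower K (Sec f U) (FF f) :=
  IsScalarTower.of_algebraMap_eq' (secToFF f U).comp_algebraMap.symm

theorem isFractionRing_sec {U : A.Opens} [Nonempty U] (hU : IsAffineOpen U) :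
    IsFractionRing (Sec f U) (FF f) :=
  functionField_isFractionRing_of_isAffineOpen A U hU

instance (U : A.Opens) [Nonempty U] : IsDomain (Sec f U) :=
  inferInstanceAs (IsDomain Γ(A, U))

/-! ## (g) Trdeg.lean -/
theorem trdeg_eq (g : ℕ) [SmoothOfRelativeDimension g f] : Algebra.trdeg K (FF f) = g := by
  obtain ⟨V, hV, hx, h⟩ := exists_standardSmooth_sec f g (genericPoint A)
  have : Nonempty V := ⟨⟨_, hx⟩⟩
  have := isFractionRing_sec f hV
  exact trdeg_of_standardSmooth K (Sec f V) (FF f) g

end Fermat.Agent.S26.Sch
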