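import Fermat.Agent.S26.Scheme.Local
import Fermat.Agent.S26.Scheme.Integral
import Fermat.Agent.S26.UFD.Smooth

set_option autoImplicit false
universe u
open CategoryTheory CategoryTheory.Limits AlgebraicGeometry NeronModelInfra GoodReductionJacobian
open IsLocalRing
noncomputable section
namespace Fermat.Agent.S26.Sch

theorem Integral.ufd_localization_of_smooth_maximal (K R Rm : Type*) [Field K] [IsAlgClosed K]
    [CommRing R] [Algebra K R] [Algebra.Smooth K R] (m : Ideal R) [m.IsMaximal]
    [CommRing Rm] [Algebra R Rm] [Algebra K Rm] [IsScalarTower K R Rm]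
    [IsLocalization.AtPrime Rm m] : UniqueFactorizationMonoid Rm := by
  have : Algebra.FiniteType K R := inferInstance
  have : IsNoetherianRing R := Algebra.FiniteType.isNoetherianRing K R
  have : IsLocalRing Rm := IsLocalization.AtPrime.isLocalRing Rm m
  have : IsNoetherianRing Rm := IsLocalization.isNoetherianRing m.primeCompl Rm inferInstance
  have : Algebra.FormallySmooth R Rm := Algebra.FormallySmooth.of_isLocalization m.primeCompl
  have : Algebra.FormallySmooth K Rm := Algebra.FormallySmooth.comp K R Rm
  have : IsDomain Rm := Integral.isDomain_localization_of_smooth K R Rm m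
  exact ufd_of_formallySmooth K Rm (Integral.bijective_algebraMap_residueField K R Rm m)

theorem Integral.ufd_localization_of_smooth (K R Rp : Type*) [Field K] [IsAlgClosed K]
    [CommRing R] [Algebra K R] [Algebra.Smooth K R] (p : Ideal R) [p.IsPrime]
    [CommRing Rp] [Algebra R Rp] [IsLocalization.AtPrime Rp p] : UniqueFactorizationMonoid Rp := by
  obtain ⟨m, hm, hpm⟩ := Ideal.exists_le_maximal p (Ideal.IsPrime.ne_top inferInstance)
  have h1 := Integral.ufd_localization_of_smooth_maximal K R (Localization.AtPrime m) m
  have hle : m.primeCompl ≤ p.primeCompl := fun x hx hxp => hx (hpm hxp)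
  letI : Algebra (Localization.AtPrime m) Rp :=
    IsLocalization.localizationAlgebraOfSubmonoidLe (Localization.AtPrime m) Rp
      m.primeCompl p.primeCompl hle
  have : IsScalarTower R (Localization.AtPrime m) Rp :=
    IsLocalization.localization_isScalarTower_of_submonoid_le (Localization.AtPrime m) Rp
      m.primeCompl p.primeCompl hle
  have := IsLocalization.isLocalization_of_submonoid_le (Localization.AtPrime m) Rp
      m.primeCompl p.primeCompl hle
  exact UniqueFactorizationMonoid.of_isLocalization
    (p.primeCompl.map (algebraMap R (Localization.AtPrime m))) Rp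

variable {K : Type u} [Field K] {A : Scheme.{u}} (f : A ⟶ Spec (CommRingCat.of K))

theorem ufd_st [IsAlgClosed K] [Smooth f] {U : A.Opens} (hU : IsAffineOpen U) (y : U) :
    UniqueFactorizationMonoid (St f y.1) := by
  have := smooth_sec f hU
  exact Integral.ufd_localization_of_smooth K (Sec f U) (St f y.1) (primeOf f hU y)

variable [IsIntegral A]

/-! ## (f) UFD.lean -/
theorem ufd_O [IsAlgClosed K] [Smooth f] [QuasiCompact f] (a : A) :
    UniqueFactorizationMonoid (O f a) := by
  obtain ⟨_, ⟨U, hU', rfl⟩, hxU, -⟩ :=
    A.isBasis_affineOpens.exists_subset_of_mem_open (Set.mem_univ a) isOpen_univ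
  have hU : IsAffineOpen U := hU'
  have h1 : UniqueFactorizationMonoid (St f a) := ufd_st f hU ⟨a, hxU⟩
  exact (stEquiv f a).toMulEquiv.uniqueFactorizationMonoid h1

end Fermat.Agent.S26.Sch
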