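import Fermat.Agent.S26.Scheme.Eval

set_option autoImplicit false
universe u
open CategoryTheory CategoryTheory.Limits AlgebraicGeometry NeronModelInfra GoodReductionJacobian
open IsLocalRing
noncomputable section
namespace Fermat.Agent.S26.Sch

theorem isDominant_SpecMap_of_injective {R S : CommRingCat.{u}} (φ : R ⟶ S)
    (h : Function.Injective φ.hom) : IsDominant (Spec.map φ) := by
  constructor
  have : DenseRange (PrimeSpectrum.comap φ.hom) := by
    rw [PrimeSpectrum.denseRange_comap_iff_ker_le_nilRadical,
      (RingHom.injective_iff_ker_eq_bot _).mp h]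
    exact bot_le
  exact this

variable {K : Type u} [Field K] {A : Scheme.{u}} (f : A ⟶ Spec (CommRingCat.of K))

variable [IsIntegral A]

/-! ## (e) Valuative.lean -/
set_option backward.isDefEq.respectTransparency false in
theorem O_injective [IsSeparated f] : Function.Injective (O f) := by
  intro a b h
  let ψ : St f b ≃ₐ[K] St f a :=
    (stEquiv f b).trans ((Subalgebra.equivOfEq _ _ h.symm).trans (stEquiv f a).symm)
  have hψ : ∀ z, algebraMap (St f a) (FF f) (ψ z) = algebraMap (St f b) (FF f) z := by
    intro z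
    have h1 : stEquiv f a (ψ z) = Subalgebra.equivOfEq _ _ h.symm (stEquiv f b z) := by
      simp [ψ]
    exact congrArg Subtype.val h1
  let ψ' : A.presheaf.stalk b ⟶ A.presheaf.stalk a := CommRingCat.ofHom ψ.toAlgHom.toRingHom
  have hloc : IsLocalHom ψ'.hom := by
    constructor
    intro z hz
    exact (MulEquiv.isUnit_map ψ).mp hz
  let spa := A.presheaf.stalkSpecializes (genericPoint_specializes a)
  let spb := A.presheaf.stalkSpecializes (genericPoint_specializes b)
  have hsp : ψ' ≫ spa = spb := by
    ext z
    exact hψ z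
  have hdom : IsDominant (Spec.map spa) :=
    isDominant_SpecMap_of_injective spa (IsFractionRing.injective (St f a) (FF f))
  have hover : A.fromSpecStalk a ≫ f = (Spec.map ψ' ≫ A.fromSpecStalk b) ≫ f := by
    rw [Category.assoc, fromSpecStalk_comp, fromSpecStalk_comp, ← Spec.map_comp]
    congr 1
    ext c
    exact (ψ.commutes c).symm
  have hgen : Spec.map spa ≫ A.fromSpecStalk a = Spec.map spa ≫ Spec.map ψ' ≫ A.fromSpecStalk b := by
    rw [← Spec.map_comp_assoc, hsp, Scheme.SpecMap_stalkSpecializes_fromSpecStalk,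
      Scheme.SpecMap_stalkSpecializes_fromSpecStalk]
  have heq := ext_of_isDominant_of_isSeparated f hover (Spec.map spa) hgen
  have h1 := congrArg (fun g : Spec (A.presheaf.stalk a) ⟶ A => g (closedPoint _)) heq
  simp only [Scheme.fromSpecStalk_closedPoint] at h1
  rw [h1, Scheme.Hom.comp_apply, Spec_closedPoint, Scheme.fromSpecStalk_closedPoint]

omit [IsIntegral A] in
theorem valuative [IsProper f] (V Φ : Type u) [CommRing V] [IsDomain V] [ValuationRing V] [Field Φ] [Algebra V Φ]
    [IsFractionRing V Φ] [Algebra K V] [Algebra K Φ] [IsScalarTower K V Φ] :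
    Function.Bijective (ptMap f (IsScalarTower.toAlgHom K V Φ)) := by
  have H : ValuativeCriterion f := by
    have h1 : IsProper f := inferInstance
    rw [IsProper.eq_valuativeCriterion] at h1
    exact h1.1.1.1
  have hstr : Spec.map (CommRingCat.ofHom (algebraMap V Φ)) ≫ str K V = str K Φ :=
    specMap_str (IsScalarTower.toAlgHom K V Φ)
  constructor
  · intro x y hxy
    let S : ValuativeCommSq f :=
      { R := V, K := Φ, i₁ := (ptMap f (IsScalarTower.toAlgHom K V Φ) x).1, i₂ := str K V,
        commSq := ⟨by rw [(ptMap f (IsScalarTower.toAlgHom K V Φ) x).2, hstr]⟩ }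
    have hS := H.uniqueness S
    let l₁ : S.commSq.LiftStruct := ⟨x.1, rfl, x.2⟩
    let l₂ : S.commSq.LiftStruct := ⟨y.1, (congrArg Subtype.val hxy).symm, y.2⟩
    have := hS.elim l₁ l₂
    exact Subtype.ext (congrArg CommSq.LiftStruct.l this)
  · intro z
    let S : ValuativeCommSq f :=
      { R := V, K := Φ, i₁ := z.1, i₂ := str K V,
        commSq := ⟨by rw [z.2, hstr]⟩ }
    obtain ⟨l, hl₁, hl₂⟩ := (H.existence S).exists_lift
    exact ⟨⟨l, hl₂⟩, Subtype.ext hl₁⟩

end Fermat.Agent.S26.Sch
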