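import Fermat.Agent.S26.Model.Defs
import Fermat.Agent.S26.Scheme.Points
import Fermat.Agent.S26.Scheme.Integral
import Fermat.Agent.S26.Scheme.Local
import Fermat.Agent.S26.Scheme.Eval
import Fermat.Agent.S26.Scheme.Valuative
import Fermat.Agent.S26.Scheme.UFD
import Fermat.Agent.S26.Scheme.Trdeg

set_option autoImplicit false
universe u
open CategoryTheory CategoryTheory.Limits AlgebraicGeometry NeronModelInfra GoodReductionJacobian
open IsLocalRing
noncomputable section
namespace Fermat.Agent.S26.Sch

variable {K : Type u} [Field K] {A : Scheme.{u}} (f : A ⟶ Spec (CommRingCat.of K))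

/-! ## Main.lean -/
theorem exists_avModel' [IsAlgClosed K]
    (L : RelativeGroupLaw K f) (hc : L.IsCommutative)
    (hA : AbelianSchemePropertyBundle K f) (g : ℕ) [SmoothOfRelativeDimension g f] :
    ∃ (F : Type u) (_ : Field F) (_ : Algebra K F) (M : AVModel K F),
      M.g = g ∧
      ∃ e : M.Pt K ≃ SchemeHomOver (𝟙 (Spec (CommRingCat.of K))) f,
        e 0 = L.one (𝟙 (Spec (CommRingCat.of K))) ∧
        ∀ x y, e (x + y) = L.mul (𝟙 (Spec (CommRingCat.of K))) (e x) (e y) := by
  have : IsIntegral A := isIntegral_of_abelian f hA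
  have : Smooth f := hA.smooth
  have : IsProper f := hA.proper
  let M : AVModel K (FF f) :=
    { g := g
      Pt := fun R _ _ => Pt f R
      grp := fun R _ _ => ptGrp L hc R
      map := fun φ x => ptMap f φ x
      map_id := fun x => ptMap_id f x
      map_comp := fun φ ψ x => ptMap_comp f φ ψ x
      map_add := fun φ x y => ptMap_add L hc φ x y
      X := A
      O := O f
      isLocalRing_O := isLocalRing_O f
      exists_fraction := exists_fraction f
      O_injective := O_injective f
      ufd_O := ufd_O f
      exists_chart := exists_chart f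
      trdeg_eq := trdeg_eq f g
      ctr := fun x => ctr f x
      ev := fun x r => ev f x r
      ev_add := fun x r s => ev_add f x r s
      ev_mul := fun x r s => ev_mul f x r s
      ev_algebraMap := fun x c => ev_algebraMap f x c
      ev_isUnit := fun x r => ev_isUnit f x r
      pt_ext := fun x y => pt_ext f x y
      exists_pt := fun a φ hφ => exists_pt f a φ hφ
      ctr_map_le := fun φ x => ctr_map_le f φ x
      ev_map := fun φ x r => ev_map f φ x r
      valuative := fun V Φ => valuative f V Φ }
  exact ⟨FF f, inferInstance, inferInstance, M, rfl, exists_ptEquiv L hc⟩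

end Fermat.Agent.S26.Sch

namespace Fermat.Agent.S26

theorem exists_avModel (K : Type u) [Field K] [IsAlgClosed K] {A : Scheme.{u}}
    (f : A ⟶ Spec (CommRingCat.of K)) (L : RelativeGroupLaw K f) (hc : L.IsCommutative)
    (hA : AbelianSchemePropertyBundle K f) (g : ℕ) [SmoothOfRelativeDimension g f] :
    ∃ (F : Type u) (_ : Field F) (_ : Algebra K F) (M : AVModel K F),
      M.g = g ∧
      ∃ e : M.Pt K ≃ SchemeHomOver (𝟙 (Spec (CommRingCat.of K))) f,
        e 0 = L.one (𝟙 (Spec (CommRingCat.of K))) ∧
        ∀ x y, e (x + y) = L.mul (𝟙 (Spec (CommRingCat.of K))) (e x) (e y) :=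
  Sch.exists_avModel' f L hc hA g

end Fermat.Agent.S26
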